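/-
GALREP package INV (helper3761), part 1: division of holomorphic functions.

* `exists_analytic_quotient`: `U`, `V` analytic on a set `S ⊆ ℂ`, the order of `V` is finite and at most
  the order of `U` at every point of `S`  ⟹  there is `W` analytic on `S` with `W * V = U` on `S`.
* `exists_holH_mul_eq`: the same for the ring `HolH` of holomorphic functions on `ℍ` (landed S24).
* `exists_holH_of_pow`: `HolH` is "root closed" in its fraction field `MerH`:
  `y ^ n = a` with `a` holomorphic, `0 < n`  ⟹  `y` is holomorphic.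
Mathlib + landed S24/B2MerH only.
-/
import Mathlib
import Fermat.Agent.S24.B2MerH

set_option autoImplicit false

open Complex UpperHalfPlane Filter Topology
open scoped MatrixGroups Manifold

namespace Fermat.Agent.S30.Inv3761

open Fermat.Agent.S24

/-- Division of analytic functions under domination of the orders of vanishing. -/
theorem exists_analytic_quotient {S : Set ℂ} {U V : ℂ → ℂ}
    (hU : AnalyticOnNhd ℂ U S) (hV : AnalyticOnNhd ℂ V S)
    (hord : ∀ z ∈ S, analyticOrderAt V z ≤ analyticOrderAt U z)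
    (hVfin : ∀ z ∈ S, analyticOrderAt V z ≠ ⊤) :
    ∃ W : ℂ → ℂ, AnalyticOnNhd ℂ W S ∧ ∀ z ∈ S, W z * V z = U z := by
  have hF : MeromorphicOn (U / V) S := fun z hz =>
    (hU z hz).meromorphicAt.div (hV z hz).meromorphicAt
  have hW : ∀ z ∈ S, AnalyticAt ℂ (toMeromorphicNFOn (U / V) S) z := by
    intro z hz
    have hNF : MeromorphicNFAt (toMeromorphicNFOn (U / V) S) z :=
      meromorphicNFOn_toMeromorphicNFOn (U / V) S hz
    rw [← hNF.meromorphicOrderAt_nonneg_iff_analyticAt, meromorphicOrderAt_toMeromorphicNFOn hF hz,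
      div_eq_mul_inv, meromorphicOrderAt_mul (hU z hz).meromorphicAt (hV z hz).meromorphicAt.inv,
      meromorphicOrderAt_inv, (hU z hz).meromorphicOrderAt_eq, (hV z hz).meromorphicOrderAt_eq]
    obtain ⟨m, hm⟩ := ENat.ne_top_iff_exists.mp (hVfin z hz)
    have h1 := hord z hz
    rw [← hm] at h1 ⊢
    rcases eq_or_ne (analyticOrderAt U z) ⊤ with hk | hk
    · rw [hk]
      simp
    · obtain ⟨k, hk⟩ := ENat.ne_top_iff_exists.mp hk
      rw [← hk] at h1 ⊢
      have hmk : m ≤ k := by exact_mod_cast h1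
      simp only [ENat.map_natCast]
      rw [← WithTop.LinearOrderedAddCommGroup.coe_neg, ← WithTop.coe_add, ← WithTop.coe_zero,
        WithTop.coe_le_coe]
      omega
  refine ⟨toMeromorphicNFOn (U / V) S, hW, fun z hz => ?_⟩
  have hne : ∀ᶠ w in 𝓝[≠] z, V w ≠ 0 := by
    rcases (hV z hz).eventually_eq_zero_or_eventually_ne_zero with h | h
    · exact absurd (analyticOrderAt_eq_top.mpr h) (hVfin z hz)
    · exact h
  have heq : ∀ᶠ w in 𝓝[≠] z, toMeromorphicNFOn (U / V) S w * V w = U w := by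
    filter_upwards [hF.toMeromorphicNFOn_eq_self_on_nhdsNE hz, hne] with w h1 h2
    rw [h1, Pi.div_apply, div_mul_cancel₀ _ h2]
  have hc1 : Tendsto (fun w => toMeromorphicNFOn (U / V) S w * V w) (𝓝[≠] z)
      (𝓝 (toMeromorphicNFOn (U / V) S z * V z)) :=
    (((hW z hz).continuousAt.mul (hV z hz).continuousAt).tendsto).mono_left nhdsWithin_le_nhds
  have hc2 : Tendsto (fun w => toMeromorphicNFOn (U / V) S w * V w) (𝓝[≠] z) (𝓝 (U z)) :=
    (((hU z hz).continuousAt.tendsto).mono_left nhdsWithin_le_nhds).congr' (heq.mono fun w h => h.symm)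
  exact tendsto_nhds_unique hc1 hc2

/-- Division in the ring `HolH` of holomorphic functions on `ℍ`: if `u` vanishes at least as much as
`v` at every point, then `v ∣ u`. -/
theorem exists_holH_mul_eq (u v : B2M.HolH) (hv : v ≠ 0)
    (hord : ∀ τ : ℍ, B2M.ordValHol τ u ≤ B2M.ordValHol τ v) :
    ∃ w : B2M.HolH, w * v = u := by
  by_cases hu : u = 0
  · exact ⟨0, by rw [hu, zero_mul]⟩
  have hS : IsOpen upperHalfPlaneSet := isOpen_upperHalfPlaneSet
  have hU : AnalyticOnNhd ℂ (u.1 ∘ ofComplex) upperHalfPlaneSet :=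
    (UpperHalfPlane.mdifferentiable_iff.mp u.2).analyticOnNhd hS
  have hV : AnalyticOnNhd ℂ (v.1 ∘ ofComplex) upperHalfPlaneSet :=
    (UpperHalfPlane.mdifferentiable_iff.mp v.2).analyticOnNhd hS
  have hVfin : ∀ z ∈ upperHalfPlaneSet, analyticOrderAt (v.1 ∘ ofComplex) z ≠ ⊤ := fun z hz =>
    B2M.analyticOrderAt_ne_top_of_ne_zero v hv ⟨z, hz⟩
  have hUfin : ∀ z ∈ upperHalfPlaneSet, analyticOrderAt (u.1 ∘ ofComplex) z ≠ ⊤ := fun z hz =>
    B2M.analyticOrderAt_ne_top_of_ne_zero u hu ⟨z, hz⟩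
  have hle : ∀ z ∈ upperHalfPlaneSet,
      analyticOrderAt (v.1 ∘ ofComplex) z ≤ analyticOrderAt (u.1 ∘ ofComplex) z := by
    intro z hz
    have h := hord ⟨z, hz⟩
    rw [B2M.ordValHol_apply _ u hu, B2M.ordValHol_apply _ v hv, WithZero.exp_le_exp] at h
    rw [← Nat.cast_analyticOrderNatAt (hVfin z hz), ← Nat.cast_analyticOrderNatAt (hUfin z hz)]
    have h' : analyticOrderNatAt (v.1 ∘ ofComplex) z ≤ analyticOrderNatAt (u.1 ∘ ofComplex) z := by
      have h2 : analyticOrderNatAt (v.1 ∘ ofComplex) ((⟨z, hz⟩ : ℍ) : ℂ)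
          ≤ analyticOrderNatAt (u.1 ∘ ofComplex) ((⟨z, hz⟩ : ℍ) : ℂ) := by omega
      exact h2
    exact_mod_cast h'
  obtain ⟨W, hW, hWV⟩ := exists_analytic_quotient hU hV hle hVfin
  have hw : MDiff (fun τ : ℍ => W (τ : ℂ)) := by
    rw [UpperHalfPlane.mdifferentiable_iff]
    refine (hW.differentiableOn).congr fun z hz => ?_
    show W ((ofComplex z : ℍ) : ℂ) = W z
    rw [ofComplex_apply_of_im_pos hz]
  refine ⟨⟨fun τ : ℍ => W (τ : ℂ), hw⟩, Subtype.ext (funext fun τ => ?_)⟩
  have h := hWV (τ : ℂ) τ.2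
  simp only [Function.comp_apply, ofComplex_apply] at h
  exact h

/-- `HolH` is root closed in its fraction field: a "meromorphic" function one of whose positive powers
is holomorphic is holomorphic. -/
theorem exists_holH_of_pow (y : B2M.MerH) (a : B2M.HolH) {n : ℕ} (hn : 0 < n)
    (h : y ^ n = algebraMap B2M.HolH B2M.MerH a) :
    ∃ w : B2M.HolH, algebraMap B2M.HolH B2M.MerH w = y := by
  obtain ⟨u, v, hv, rfl⟩ := IsFractionRing.div_surjective (A := B2M.HolH) y
  have hv0 : v ≠ 0 := nonZeroDivisors.ne_zero hv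
  have hord : ∀ τ : ℍ, B2M.ordValHol τ u ≤ B2M.ordValHol τ v := by
    intro τ
    have h1 := congrArg (B2M.ordVal τ) h
    rw [map_pow, map_div₀, B2M.ordVal_algebraMap, B2M.ordVal_algebraMap, B2M.ordVal_algebraMap] at h1
    have h2 : (B2M.ordValHol τ u / B2M.ordValHol τ v) ^ n ≤ 1 := h1 ▸ B2M.ordValHol_le_one τ a
    have h3 : B2M.ordValHol τ u / B2M.ordValHol τ v ≤ 1 := by
      by_contra hlt
      exact absurd h2 (not_le.mpr (one_lt_pow₀ (not_le.mp hlt) hn.ne'))
    have hpos : 0 < B2M.ordValHol τ v := zero_lt_iff.mpr (B2M.ordValHol_ne_zero τ v hv0)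
    exact (div_le_one₀ hpos).mp h3
  obtain ⟨w, hw⟩ := exists_holH_mul_eq u v hv0 hord
  refine ⟨w, ?_⟩
  rw [eq_div_iff ((map_ne_zero_iff _ (IsFractionRing.injective B2M.HolH B2M.MerH)).mpr hv0),
    ← map_mul, hw]

end Fermat.Agent.S30.Inv3761
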