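/-
GALREP package INV (helper3761), part 2: denominator-free Lagrange interpolation with symmetries.

For a commutative ring `A`, a finite index type `ι` and families `t x : ι → A` we define
`lagD t : A` (a power-free form of the discriminant) and `lagR t x : A[X]` with
`(lagR t x).eval (t i) = x i * lagD t`, `lagD t ≠ 0` when `t` is injective and `A` a domain, and both are
fixed by every ring endomorphism `φ` of `A` that permutes the pairs `(t i, x i)`.
Mathlib only.
-/
import Mathlib

set_option autoImplicit false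

open Polynomial

noncomputable section

namespace Fermat.Agent.S30.Inv3761

section Lagrange

variable {A ι : Type*} [CommRing A] [Fintype ι] [DecidableEq ι]

/-- `E i = ∏_{k ≠ i} (t i - t k)`. -/
def lagE (t : ι → A) (i : ι) : A := ∏ k ∈ Finset.univ.erase i, (t i - t k)

/-- `D = ∏_i E i` (up to sign, the discriminant of `∏ (X - t i)`). -/
def lagD (t : ι → A) : A := ∏ i, lagE t i

/-- The `i`-th summand of the interpolation polynomial. -/
def lagTerm (t x : ι → A) (i : ι) : A[X] :=
  C (x i * ∏ l ∈ Finset.univ.erase i, lagE t l) * ∏ k ∈ Finset.univ.erase i, (X - C (t k))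

/-- The interpolation polynomial with cleared denominators: `R(t i) = x i * D`. -/
def lagR (t x : ι → A) : A[X] := ∑ i, lagTerm t x i

theorem eval_lagTerm_of_ne (t x : ι → A) {i i' : ι} (h : i' ≠ i) :
    (lagTerm t x i').eval (t i) = 0 := by
  have hmem : i ∈ Finset.univ.erase i' := Finset.mem_erase.mpr ⟨h.symm, Finset.mem_univ _⟩
  have h0 : ∏ k ∈ Finset.univ.erase i', eval (t i) (X - C (t k)) = 0 :=
    Finset.prod_eq_zero hmem (by simp)
  rw [lagTerm, eval_mul, eval_prod, h0, mul_zero]

theorem eval_lagTerm_self (t x : ι → A) (i : ι) :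
    (lagTerm t x i).eval (t i) = x i * lagD t := by
  rw [lagTerm, eval_mul, eval_C, eval_prod]
  have h1 : ∏ k ∈ Finset.univ.erase i, eval (t i) (X - C (t k)) = lagE t i := by
    rw [lagE]
    exact Finset.prod_congr rfl fun k _ => by simp
  rw [h1, lagD, mul_assoc, Finset.prod_erase_mul _ _ (Finset.mem_univ i)]

theorem eval_lagR (t x : ι → A) (i : ι) : (lagR t x).eval (t i) = x i * lagD t := by
  rw [lagR, eval_finsetSum, Finset.sum_eq_single i]
  · exact eval_lagTerm_self t x i
  · intro i' _ h
    exact eval_lagTerm_of_ne t x h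
  · intro h
    exact absurd (Finset.mem_univ i) h

theorem lagE_ne_zero [IsDomain A] {t : ι → A} (ht : Function.Injective t) (i : ι) :
    lagE t i ≠ 0 := by
  rw [lagE, Finset.prod_ne_zero_iff]
  intro k hk
  exact sub_ne_zero.mpr fun h => (Finset.mem_erase.mp hk).1 (ht h).symm

theorem lagD_ne_zero [IsDomain A] {t : ι → A} (ht : Function.Injective t) : lagD t ≠ 0 := by
  rw [lagD, Finset.prod_ne_zero_iff]
  intro i _
  exact lagE_ne_zero ht i

variable (φ : A →+* A) (π : ι ≃ ι)

theorem map_lagE {t : ι → A} (ht : ∀ i, φ (t i) = t (π i)) (i : ι) :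
    φ (lagE t i) = lagE t (π i) := by
  rw [lagE, lagE, map_prod]
  refine Finset.prod_equiv π (fun k => ?_) (fun k _ => ?_)
  · simp only [Finset.mem_erase, Finset.mem_univ, and_true, ne_eq, EmbeddingLike.apply_eq_iff_eq]
  · rw [map_sub, ht, ht]

theorem map_lagD {t : ι → A} (ht : ∀ i, φ (t i) = t (π i)) : φ (lagD t) = lagD t := by
  rw [lagD, map_prod]
  exact Fintype.prod_equiv π _ _ fun i => map_lagE φ π ht i

theorem map_lagTerm {t x : ι → A} (ht : ∀ i, φ (t i) = t (π i)) (hx : ∀ i, φ (x i) = x (π i))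
    (i : ι) : (lagTerm t x i).map φ = lagTerm t x (π i) := by
  rw [lagTerm, lagTerm, Polynomial.map_mul, map_C, Polynomial.map_prod, map_mul, map_prod, hx]
  congr 1
  · congr 2
    refine Finset.prod_equiv π (fun k => ?_) (fun k _ => map_lagE φ π ht k)
    simp only [Finset.mem_erase, Finset.mem_univ, and_true, ne_eq, EmbeddingLike.apply_eq_iff_eq]
  · refine Finset.prod_equiv π (fun k => ?_) (fun k _ => ?_)
    · simp only [Finset.mem_erase, Finset.mem_univ, and_true, ne_eq, EmbeddingLike.apply_eq_iff_eq]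
    · rw [Polynomial.map_sub, map_X, map_C, ht]

theorem map_lagR {t x : ι → A} (ht : ∀ i, φ (t i) = t (π i)) (hx : ∀ i, φ (x i) = x (π i)) :
    (lagR t x).map φ = lagR t x := by
  rw [lagR, Polynomial.map_sum]
  exact Fintype.sum_equiv π _ _ fun i => map_lagTerm φ π ht hx i

theorem map_coeff_lagR {t x : ι → A} (ht : ∀ i, φ (t i) = t (π i)) (hx : ∀ i, φ (x i) = x (π i))
    (k : ℕ) : φ ((lagR t x).coeff k) = (lagR t x).coeff k := by
  conv_rhs => rw [← map_lagR φ π ht hx]
  rw [coeff_map]

end Lagrange

end Fermat.Agent.S30.Inv3761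

end
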