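/-
GALREP package INV (helper3761), part 3: `Γ₀(N)`-invariant holomorphic modular functions.

On the landed S24 model (`ModHol N`, `ModMer N`, `modHolAut`, `jdHol`):
* `exists_polynomial_of_invariant'`: an `SL(2,ℤ)`-invariant element of `ModHol N` is a polynomial in `j`
  (wrapper of landed (J8)).
* `algebraMap_mem_fieldJJN_of_invariant` (INV-hol): a `Γ₀(N)`-invariant element of `ModHol N` lies in
  the subfield `ℂ(j, j_N)` of `ModMer N` (Lagrange interpolation over `SL(2,ℤ)/Γ₀(N)`; no finite group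
  acts on `ModMer N` in general, because `ModHol N` only asks for invariance under the conjugates of `T^N`).
* `exists_modHol_of_pow`: a holomorphic `Γ₀(N)`-invariant function on `ℍ` one of whose positive powers
  lies in `ModHol N` lies in `ModHol N`.
-/
import Fermat.Agent.S24.Modular
import Fermat.Agent.S30.Inv3761.Div
import Fermat.Agent.S30.Inv3761.Lagrange

set_option autoImplicit false
set_option linter.unusedSectionVars false
set_option linter.style.haveILetI false

open Complex UpperHalfPlane Filter Topology Polynomial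
open scoped MatrixGroups Manifold

noncomputable section

namespace Fermat.Agent.S30.Inv3761

open Fermat.Agent.S24

variable (N : ℕ) [NeZero N]

theorem modHolAut_mul' (γ δ : SL(2, ℤ)) (f : ModHol N) :
    modHolAut N (γ * δ) f = modHolAut N γ (modHolAut N δ f) := by
  apply Subtype.ext
  funext τ
  simp only [modHolAut_apply, mul_inv_rev, mul_smul]

theorem modHolAut_one' (f : ModHol N) : modHolAut N 1 f = f := by
  apply Subtype.ext
  funext τ
  simp only [modHolAut_apply, inv_one, one_smul]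

/-- `j` as an element of `ModHol N`. -/
abbrev jH : ModHol N := jdHol N 1 (one_dvd N)

/-- `j_N : τ ↦ j(Nτ)` as an element of `ModHol N`. -/
abbrev jNH : ModHol N := jdHol N N dvd_rfl

/-- Evaluation at a point, as a ring hom. -/
def evalAt (τ : ℍ) : ModHol N →+* ℂ :=
  (Pi.evalRingHom (fun _ : ℍ => ℂ) τ).comp (ModHol N).subtype

theorem evalAt_apply (τ : ℍ) (f : ModHol N) : evalAt N τ f = f.1 τ := rfl

theorem eval₂_jH_apply (p : ℂ[X]) (τ : ℍ) :
    (Polynomial.eval₂ (constHol N) (jH N) p).1 τ = p.eval (jC τ) := by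
  rw [← evalAt_apply, Polynomial.hom_eval₂]
  have h1 : (evalAt N τ).comp (constHol N) = RingHom.id ℂ := RingHom.ext fun c => rfl
  have h2 : evalAt N τ (jH N) = jC τ := b6_jdHol_one_apply N τ
  rw [h1, h2]
  rfl

/-- (J8) in `ModHol N`: the `SL(2,ℤ)`-invariants are the polynomials in `j`. -/
theorem exists_polynomial_of_invariant' (f : ModHol N)
    (hf : ∀ γ : SL(2, ℤ), modHolAut N γ f = f) :
    ∃ p : ℂ[X], f = Polynomial.eval₂ (constHol N) (jH N) p := by
  have hinv : ∀ (γ : SL(2, ℤ)) (τ : ℍ), f.1 (γ • τ) = f.1 τ := by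
    intro γ τ
    have h := congrArg (fun g : ModHol N => g.1 τ) (hf γ⁻¹)
    simpa only [modHolAut_apply, inv_inv] using h
  have hg : ModerateGrowth f.1 := by
    have h := (f.2.2 1).2
    simpa only [one_smul] using h
  obtain ⟨p, hp⟩ := exists_polynomial_of_invariant f.1 f.2.1 hinv hg
  exact ⟨p, Subtype.ext (funext fun τ => by rw [hp τ, eval₂_jH_apply])⟩

/-- The subfield `ℂ(j, j_N)` of `ModMer N`. -/
def fieldJJN : Subfield (ModMer N) :=
  Subfield.closure (Set.range (constM N) ∪
    {algebraMap (ModHol N) (ModMer N) (jH N), algebraMap (ModHol N) (ModMer N) (jNH N)})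

theorem constM_mem_fieldJJN (c : ℂ) : constM N c ∈ fieldJJN N :=
  Subfield.subset_closure (Or.inl ⟨c, rfl⟩)

theorem jH_mem_fieldJJN : algebraMap (ModHol N) (ModMer N) (jH N) ∈ fieldJJN N :=
  Subfield.subset_closure (Or.inr (Or.inl rfl))

theorem jNH_mem_fieldJJN : algebraMap (ModHol N) (ModMer N) (jNH N) ∈ fieldJJN N :=
  Subfield.subset_closure (Or.inr (Or.inr rfl))

theorem algebraMap_eval₂_mem (p : ℂ[X]) :
    algebraMap (ModHol N) (ModMer N) (Polynomial.eval₂ (constHol N) (jH N) p) ∈ fieldJJN N := by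
  rw [Polynomial.eval₂_eq_sum_range, map_sum]
  refine sum_mem fun i _ => ?_
  rw [map_mul, map_pow]
  exact mul_mem (constM_mem_fieldJJN N _) (pow_mem (jH_mem_fieldJJN N) _)

/-- The conjugates of a `Γ₀(N)`-invariant function, indexed by `SL(2,ℤ)/Γ₀(N)`. -/
def conj (y : ModHol N) (hy : ∀ γ ∈ CongruenceSubgroup.Gamma0 N, modHolAut N γ y = y) :
    Q0 N → ModHol N :=
  fun q => Quotient.liftOn' q (fun γ : SL(2, ℤ) => modHolAut N γ y) (by
    intro a b hab
    have h : a⁻¹ * b ∈ CongruenceSubgroup.Gamma0 N := QuotientGroup.leftRel_apply.mp hab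
    show modHolAut N a y = modHolAut N b y
    have hb : b = a * (a⁻¹ * b) := by group
    rw [hb, modHolAut_mul', hy _ h])

theorem conj_mk (y : ModHol N) (hy : ∀ γ ∈ CongruenceSubgroup.Gamma0 N, modHolAut N γ y = y)
    (γ : SL(2, ℤ)) : conj N y hy (QuotientGroup.mk γ) = modHolAut N γ y := rfl

theorem modHolAut_conj (y : ModHol N) (hy : ∀ γ ∈ CongruenceSubgroup.Gamma0 N, modHolAut N γ y = y)
    (σ : SL(2, ℤ)) (q : Q0 N) : modHolAut N σ (conj N y hy q) = conj N y hy (σ • q) := by
  induction q using QuotientGroup.induction_on with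
  | H γ =>
    show modHolAut N σ (modHolAut N γ y) = modHolAut N (σ * γ) y
    rw [modHolAut_mul']

theorem conj_jNH_injective :
    Function.Injective (conj N (jNH N) (fun γ hγ => modHolAut_jdHol N N dvd_rfl γ hγ)) := by
  intro q q' h
  induction q using QuotientGroup.induction_on with
  | H γ =>
    induction q' using QuotientGroup.induction_on with
    | H γ' =>
      rw [conj_mk, conj_mk] at h
      apply QuotientGroup.eq.mpr
      apply mem_Gamma0_of_modHolAut_jdHol N
      have h2 := congrArg (modHolAut N γ⁻¹) h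
      rw [← modHolAut_mul', ← modHolAut_mul', inv_mul_cancel, modHolAut_one'] at h2
      exact h2.symm

/-- **INV-hol.** A `Γ₀(N)`-invariant holomorphic modular function lies in `ℂ(j, j_N)`. -/
theorem algebraMap_mem_fieldJJN_of_invariant (y : ModHol N)
    (hy : ∀ γ ∈ CongruenceSubgroup.Gamma0 N, modHolAut N γ y = y) :
    algebraMap (ModHol N) (ModMer N) y ∈ fieldJJN N := by
  classical
  haveI : Fintype (Q0 N) := Fintype.ofFinite _
  set t : Q0 N → ModHol N := conj N (jNH N) (fun γ hγ => modHolAut_jdHol N N dvd_rfl γ hγ) with ht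
  set x : Q0 N → ModHol N := conj N y hy with hx
  have htinj : Function.Injective t := conj_jNH_injective N
  have hD0 : lagD t ≠ 0 := lagD_ne_zero htinj
  -- invariance
  have hφt : ∀ σ : SL(2, ℤ), ∀ i, ((modHolAut N σ : ModHol N ≃+* ModHol N) : ModHol N →+* ModHol N) (t i)
      = t ((MulAction.toPerm σ : Equiv.Perm (Q0 N)) i) := fun σ i => modHolAut_conj N _ _ σ i
  have hφx : ∀ σ : SL(2, ℤ), ∀ i, ((modHolAut N σ : ModHol N ≃+* ModHol N) : ModHol N →+* ModHol N) (x i)
      = x ((MulAction.toPerm σ : Equiv.Perm (Q0 N)) i) := fun σ i => modHolAut_conj N _ _ σ i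
  have hDinv : ∀ σ : SL(2, ℤ), modHolAut N σ (lagD t) = lagD t := fun σ =>
    map_lagD _ (MulAction.toPerm σ) (hφt σ)
  have hRinv : ∀ (k : ℕ) (σ : SL(2, ℤ)), modHolAut N σ ((lagR t x).coeff k) = (lagR t x).coeff k :=
    fun k σ => map_coeff_lagR _ (MulAction.toPerm σ) (hφt σ) (hφx σ) k
  obtain ⟨d, hd⟩ := exists_polynomial_of_invariant' N (lagD t) hDinv
  have hp : ∀ k : ℕ, ∃ p : ℂ[X], (lagR t x).coeff k = Polynomial.eval₂ (constHol N) (jH N) p :=
    fun k => exists_polynomial_of_invariant' N _ (hRinv k)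
  -- evaluate at the trivial coset
  have h1 : t (QuotientGroup.mk 1) = jNH N := by rw [ht, conj_mk, modHolAut_one']
  have h2 : x (QuotientGroup.mk 1) = y := by rw [hx, conj_mk, modHolAut_one']
  have hev := eval_lagR t x (QuotientGroup.mk 1)
  rw [h1, h2, Polynomial.eval_eq_sum_range] at hev
  have hyD : algebraMap (ModHol N) (ModMer N) y
      = algebraMap (ModHol N) (ModMer N)
          (∑ k ∈ Finset.range ((lagR t x).natDegree + 1), (lagR t x).coeff k * jNH N ^ k)
        / algebraMap (ModHol N) (ModMer N) (lagD t) := by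
    rw [eq_div_iff ((map_ne_zero_iff _ (IsFractionRing.injective (ModHol N) (ModMer N))).mpr hD0),
      ← map_mul, hev]
  rw [hyD]
  refine div_mem ?_ ?_
  · rw [map_sum]
    refine sum_mem fun k _ => ?_
    rw [map_mul, map_pow]
    obtain ⟨p, hp⟩ := hp k
    rw [hp]
    exact mul_mem (algebraMap_eval₂_mem N p) (pow_mem (jNH_mem_fieldJJN N) _)
  · rw [hd]
    exact algebraMap_eval₂_mem N d

/-- A holomorphic `Γ₀(N)`-invariant function on `ℍ`, one of whose positive powers lies in `ModHol N`,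
lies in `ModHol N` (and is `Γ₀(N)`-invariant there). -/
theorem exists_modHol_of_pow (w : B2M.HolH) (a : ModHol N) {n : ℕ} (hn : 0 < n)
    (hpow : w ^ n = modHolToHolH N a)
    (hinv : ∀ γ ∈ CongruenceSubgroup.Gamma0 N, B2M.holAut γ w = w) :
    ∃ w' : ModHol N, modHolToHolH N w' = w ∧
      ∀ γ ∈ CongruenceSubgroup.Gamma0 N, modHolAut N γ w' = w' := by
  have hpt : ∀ τ : ℍ, w.1 τ ^ n = a.1 τ := fun τ =>
    congrArg (fun g : B2M.HolH => g.1 τ) hpow
  have hmod : IsModHol N w.1 := by
    refine ⟨w.2, fun γ => ⟨fun τ => ?_, ?_⟩⟩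
    · -- periodicity
      have hδ : γ * ModularGroup.T ^ N * γ⁻¹ ∈ CongruenceSubgroup.Gamma0 N := by
        have h := b6_conj_T_pow_mem N γ⁻¹
        rwa [inv_inv] at h
      have h1 := congrArg (fun g : B2M.HolH => g.1 (γ • τ)) (hinv _ (inv_mem hδ))
      simp only [B2M.holAut_apply, inv_inv] at h1
      rw [← h1, mul_smul, mul_smul, inv_smul_smul]
      have h2 := UpperHalfPlane.modular_T_zpow_smul τ (N : ℤ)
      rw [zpow_natCast] at h2
      rw [h2]
      push_cast
      rfl
    · -- moderate growth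
      obtain ⟨C, A, M, h⟩ := (a.2.2 γ).2
      refine ⟨1 + |C|, max A 0, max M 0, fun τ hτ => ?_⟩
      have hA : A ≤ τ.im := le_trans (le_max_left _ _) hτ
      have h0 : 0 ≤ τ.im := le_trans (le_max_right _ _) hτ
      have h1 := h τ hA
      have h2 : ‖w.1 (γ • τ)‖ ^ n = ‖a.1 (γ • τ)‖ := by rw [← norm_pow, hpt]
      have e1 : Real.exp (M * τ.im) ≤ Real.exp (max M 0 * τ.im) :=
        Real.exp_le_exp.mpr (mul_le_mul_of_nonneg_right (le_max_left _ _) h0)
      have e2 : 1 ≤ Real.exp (max M 0 * τ.im) :=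
        Real.one_le_exp (mul_nonneg (le_max_right _ _) h0)
      have h3 : ‖a.1 (γ • τ)‖ ≤ |C| * Real.exp (max M 0 * τ.im) :=
        h1.trans ((mul_le_mul_of_nonneg_right (le_abs_self C) (Real.exp_pos _).le).trans
          (mul_le_mul_of_nonneg_left e1 (abs_nonneg C)))
      have h4 : ‖w.1 (γ • τ)‖ ≤ 1 + ‖a.1 (γ • τ)‖ := by
        rcases le_or_gt ‖w.1 (γ • τ)‖ 1 with h5 | h5
        · linarith [norm_nonneg (a.1 (γ • τ))]
        · have h6 : ‖w.1 (γ • τ)‖ ≤ ‖w.1 (γ • τ)‖ ^ n :=
            le_self_pow₀ h5.le hn.ne'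
          linarith
      calc ‖w.1 (γ • τ)‖ ≤ 1 + ‖a.1 (γ • τ)‖ := h4
        _ ≤ Real.exp (max M 0 * τ.im) + |C| * Real.exp (max M 0 * τ.im) := add_le_add e2 h3
        _ = (1 + |C|) * Real.exp (max M 0 * τ.im) := by ring
  refine ⟨⟨w.1, hmod⟩, Subtype.ext rfl, fun γ hγ => ?_⟩
  apply modHolToHolH_injective N
  rw [modHolToHolH_modHolAut]
  exact hinv γ hγ

end Fermat.Agent.S30.Inv3761

end
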