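/-
GALREP package INV (helper3761), part 4: Nullstellensatz specialisation.

`exists_specialisation`: `k` algebraically closed, `ι : k →+* Ω` a field extension, `s ⊆ Ω` finite,
`b ≠ 0` in `Ω`.  Then there are a ring `R` with `k → R ↪ Ω` whose image contains `s` and `b`, and a
retraction `φ : R →+* k` of `k → R` with `φ b ≠ 0`.
Mathlib only.
-/
import Mathlib

set_option autoImplicit false
set_option linter.style.haveILetI false

universe u v

namespace Fermat.Agent.S30.Inv3761

/-- A nontrivial finite type algebra over an algebraically closed field has a rational point. -/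
theorem exists_algHom_of_finiteType (k A : Type*) [Field k] [IsAlgClosed k] [CommRing A]
    [Algebra k A] [Algebra.FiniteType k A] [Nontrivial A] : Nonempty (A →ₐ[k] k) := by
  obtain ⟨m, hm⟩ := Ideal.exists_maximal A
  letI : Field (A ⧸ m) := Ideal.Quotient.field m
  haveI : Algebra.FiniteType k (A ⧸ m) :=
    Algebra.FiniteType.of_surjective (Ideal.Quotient.mkₐ k m) (Ideal.Quotient.mkₐ_surjective k m)
  haveI : Module.Finite k (A ⧸ m) := finite_of_finite_type_of_isJacobsonRing k (A ⧸ m)
  haveI : Algebra.IsIntegral k (A ⧸ m) := Algebra.IsIntegral.of_finite k (A ⧸ m)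
  have hbij : Function.Bijective (algebraMap k (A ⧸ m)) :=
    IsAlgClosed.algebraMap_bijective_of_isIntegral
  let e : k ≃ₐ[k] (A ⧸ m) := AlgEquiv.ofBijective (Algebra.ofId k (A ⧸ m)) hbij
  exact ⟨(e.symm : (A ⧸ m) →ₐ[k] k).comp (Ideal.Quotient.mkₐ k m)⟩

/-- Specialisation of finitely many elements of an extension field to an algebraically closed
subfield, keeping a given element nonzero. -/
theorem exists_specialisation {k : Type v} {Ω : Type u} [Field k] [IsAlgClosed k] [Field Ω]
    (ι : k →+* Ω)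
    (s : Finset Ω) (b : Ω) (hb : b ≠ 0) :
    ∃ (R : Type u) (_ : CommRing R) (incl : R →+* Ω) (ιR : k →+* R) (φ : R →+* k),
      Function.Injective incl ∧ incl.comp ιR = ι ∧ (∀ x ∈ s, x ∈ incl.range) ∧
      (∃ r : R, incl r = b ∧ φ r ≠ 0) ∧ φ.comp ιR = RingHom.id k := by
  classical
  letI : Algebra k Ω := ι.toAlgebra
  let A : Subalgebra k Ω := Algebra.adjoin k (↑(insert b (insert b⁻¹ s)) : Set Ω)
  haveI : Algebra.FiniteType k A :=
    (Subalgebra.fg_iff_finiteType A).mp (Subalgebra.fg_adjoin_finset _)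
  obtain ⟨φ⟩ := exists_algHom_of_finiteType k A
  have hbA : b ∈ A := Algebra.subset_adjoin (by simp)
  have hbiA : b⁻¹ ∈ A := Algebra.subset_adjoin (by simp)
  refine ⟨↥A, inferInstance, A.val.toRingHom, algebraMap k A, φ.toRingHom, Subtype.val_injective,
    RingHom.ext fun c => rfl, fun x hx => ⟨⟨x, Algebra.subset_adjoin (by simp [hx])⟩, rfl⟩,
    ⟨⟨b, hbA⟩, rfl, fun h0 => ?_⟩, RingHom.ext fun c => φ.commutes c⟩
  have h1 : (⟨b, hbA⟩ : A) * ⟨b⁻¹, hbiA⟩ = 1 := Subtype.ext (mul_inv_cancel₀ hb)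
  have h2 := congrArg φ h1
  rw [map_mul, map_one] at h2
  have h0' : φ ⟨b, hbA⟩ = 0 := h0
  rw [h0', zero_mul] at h2
  exact zero_ne_one h2

end Fermat.Agent.S30.Inv3761
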