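/-
GALREP package INV (helper3761), part 5: the Kummer-injectivity core.

`exists_root_of_invariant` (KI'): `f` in the function field `F_N = modularFunctionFieldBar N`, `h` a
"meromorphic function on `ℍ`" (`B2M.MerH`) with `h ^ n = Theta N f` (`0 < n`) and `h` invariant under
`Γ₀(N)`  ⟹  `f = g ^ n` for some `g ∈ F_N`.
-/
import Fermat.Agent.S24.Modular
import Fermat.Agent.S30.Inv3761.Hol
import Fermat.Agent.S30.Inv3761.Spec

set_option autoImplicit false
set_option linter.unusedSectionVars false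
set_option linter.style.haveILetI false

open Complex UpperHalfPlane Filter Topology ModularCurve
open scoped MatrixGroups Manifold

noncomputable section

namespace Fermat.Agent.S30.Inv3761

open Fermat.Agent.S24

local notation "K" => AlgebraicClosure ℚ

variable (N : ℕ) [NeZero N]

/-- The functions `τ ↦ j(dτ)`, `d ∣ N`. -/
def jdFam (d : B4h8917.Dv N) : ModHol N := jdHol N d.1 d.2

/-- Evaluation of a polynomial with complex coefficients at the functions `j(dτ)`. -/
def evC : MvPolynomial (B4h8917.Dv N) ℂ →+* ModHol N :=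
  MvPolynomial.eval₂Hom (constHol N) (jdFam N)

theorem evC_apply (P : MvPolynomial (B4h8917.Dv N) ℂ) :
    evC N P = MvPolynomial.eval₂ (constHol N) (jdFam N) P := rfl

theorem modHolAut_evC (γ : SL(2, ℤ)) (hγ : γ ∈ CongruenceSubgroup.Gamma0 N)
    (P : MvPolynomial (B4h8917.Dv N) ℂ) : modHolAut N γ (evC N P) = evC N P := by
  have h := MvPolynomial.eval₂_comp_left
    ((modHolAut N γ : ModHol N ≃+* ModHol N) : ModHol N →+* ModHol N) (constHol N) (jdFam N) P
  have h1 : ((modHolAut N γ : ModHol N ≃+* ModHol N) : ModHol N →+* ModHol N).comp (constHol N)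
      = constHol N := RingHom.ext fun c => Subtype.ext rfl
  have h2 : (⇑((modHolAut N γ : ModHol N ≃+* ModHol N) : ModHol N →+* ModHol N)) ∘ jdFam N
      = jdFam N := funext fun d => modHolAut_jdHol N d.1 d.2 γ hγ
  rw [h1, h2] at h
  exact h

theorem Theta_jBD (d : B4h8917.Dv N) :
    Theta N (B4h8917.jBD N d) = algebraMap (ModHol N) (ModMer N) (jdFam N d) :=
  (Classical.choose_spec (B4h8917.exists_theta N iotaC)).2 d

/-- `Theta` on polynomial expressions in the `j(q^d)`. -/
theorem Theta_aeval (P : MvPolynomial (B4h8917.Dv N) K) :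
    Theta N (MvPolynomial.aeval (B4h8917.jBD N) P)
      = algebraMap (ModHol N) (ModMer N) (evC N (MvPolynomial.map iotaC P)) := by
  rw [MvPolynomial.aeval_def, MvPolynomial.eval₂_comp_left, evC_apply, MvPolynomial.eval₂_map,
    MvPolynomial.eval₂_comp_left]
  congr 1
  · exact RingHom.ext fun c => Theta_algebraMap N c
  · exact funext fun d => Theta_jBD N d

theorem coe_aeval_jBD (P : MvPolynomial (B4h8917.Dv N) K) :
    ((MvPolynomial.aeval (B4h8917.jBD N) P : ↥(modularFunctionFieldBar N)) : LaurentSeries K)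
      = MvPolynomial.aeval (B4h8917.jqB N) P := by
  have h : (modularFunctionFieldBar N).val.comp (MvPolynomial.aeval (B4h8917.jBD N))
      = MvPolynomial.aeval (B4h8917.jqB N) := by
    apply MvPolynomial.algHom_ext
    intro d
    simp [B4h8917.jBD]
  exact congrArg (fun ψ : MvPolynomial (B4h8917.Dv N) K →ₐ[K] LaurentSeries K => ψ P) h

/-- Every element of `F_N` is a quotient of polynomial expressions in the `j(q^d)`. -/
theorem exists_aeval_div (f : ↥(modularFunctionFieldBar N)) :
    ∃ A B : MvPolynomial (B4h8917.Dv N) K, MvPolynomial.aeval (B4h8917.jBD N) B ≠ 0 ∧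
      f = MvPolynomial.aeval (B4h8917.jBD N) A / MvPolynomial.aeval (B4h8917.jBD N) B := by
  have hf : (f : LaurentSeries K) ∈ IntermediateField.adjoin K (Set.range (B4h8917.jqB N)) := by
    rw [← B4h8917.bar_eq_adjoin]
    exact f.2
  rw [IntermediateField.mem_adjoin_iff_div] at hf
  obtain ⟨r, hr, s, hs, hfrs⟩ := hf
  rw [Algebra.adjoin_range_eq_range_aeval] at hr hs
  obtain ⟨A, rfl⟩ := hr
  obtain ⟨B, rfl⟩ := hs
  by_cases hB : MvPolynomial.aeval (B4h8917.jBD N) B = 0
  · refine ⟨0, 1, by simp, ?_⟩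
    have hB' : MvPolynomial.aeval (B4h8917.jqB N) B = 0 := by
      rw [← coe_aeval_jBD, hB]
      rfl
    have hf0 : (f : LaurentSeries K) = 0 := by
      rw [hfrs]
      show (MvPolynomial.aeval (B4h8917.jqB N)) A / (MvPolynomial.aeval (B4h8917.jqB N)) B = 0
      rw [hB', div_zero]
    have : f = 0 := Subtype.ext hf0
    rw [this]
    simp
  · refine ⟨A, B, hB, Subtype.ext ?_⟩
    rw [IntermediateField.coe_div, coe_aeval_jBD, coe_aeval_jBD]
    exact hfrs

/-! ### Formal `q`-expansions over an arbitrary coefficient ring -/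

section Formal

variable {R S : Type*} [CommRing R] [CommRing S]

/-- The formal series `j(q^d)` with coefficients in `R` (via `ρ : ℚ →+* R`). -/
def jqR (ρ : ℚ →+* R) (d : B4h8917.Dv N) : LaurentSeries R :=
  coeffMap ρ (@qExpand ℚ _ d.1 d.neZero jq)

/-- Evaluation of a polynomial with coefficients in `R` at the formal series `j(q^d)`. -/
def PhiG (ρ : ℚ →+* R) : MvPolynomial (B4h8917.Dv N) R →+* LaurentSeries R :=
  MvPolynomial.eval₂Hom (HahnSeries.C : R →+* LaurentSeries R) (jqR N ρ)

theorem PhiG_apply (ρ : ℚ →+* R) (P : MvPolynomial (B4h8917.Dv N) R) :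
    PhiG N ρ P = MvPolynomial.eval₂ (HahnSeries.C : R →+* LaurentSeries R) (jqR N ρ) P := rfl

/-- Naturality of `PhiG` in the coefficient ring. -/
theorem coeffMap_PhiG (ρ : ℚ →+* R) (g : R →+* S) (P : MvPolynomial (B4h8917.Dv N) R) :
    coeffMap g (PhiG N ρ P) = PhiG N (g.comp ρ) (MvPolynomial.map g P) := by
  rw [PhiG_apply, PhiG_apply, MvPolynomial.eval₂_comp_left, MvPolynomial.eval₂_map]
  congr 1
  refine RingHom.ext fun c => ?_
  simp only [RingHom.comp_apply, HahnSeries.C_apply]
  exact coeffMap_single g 0 c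

theorem coeffMap_injective {g : R →+* S} (hg : Function.Injective g) :
    Function.Injective (coeffMap g : LaurentSeries R → LaurentSeries S) := by
  intro x y hxy
  ext k
  have h1 := congrArg (fun z : LaurentSeries S => z.coeff k) hxy
  simp only [coeffMap_coeff] at h1
  exact hg h1

end Formal

/-- Over `ℚ̄`, `PhiG` is the evaluation at the generators of the function field. -/
theorem PhiG_K (P : MvPolynomial (B4h8917.Dv N) K) :
    PhiG N (algebraMap ℚ K) P = MvPolynomial.aeval (B4h8917.jqB N) P := by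
  rw [PhiG_apply, MvPolynomial.aeval_def]
  congr 1
  refine RingHom.ext fun c => ?_
  rw [algebraMap_laurentSeries_eq_single, HahnSeries.C_apply]

/-- **Kernel formal = kernel analytic** with complex coefficients (landed `JqB` with `L = ℂ`). -/
theorem evC_eq_zero_iff (P : MvPolynomial (B4h8917.Dv N) ℂ) :
    evC N P = 0 ↔ PhiG N (algebraMap ℚ ℂ) P = 0 := by
  have h1 := @JqB.aeval_coeffEmb_qExpand_jq_eq_zero_iff' ℂ _ _ (RingHom.id ℂ) (B4h8917.Dv N)
    (fun d => d.1) (fun d => d.neZero) P
  have h2 : PhiG N (algebraMap ℚ ℂ) P = MvPolynomial.aeval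
      (fun i : B4h8917.Dv N => coeffEmb ℂ (@qExpand ℚ _ i.1 i.neZero jq)) P := by
    rw [PhiG_apply, MvPolynomial.aeval_def]
    congr 1
    refine RingHom.ext fun c => ?_
    rw [algebraMap_laurentSeries_eq_single, HahnSeries.C_apply]
  rw [h2, h1]
  have h3 : ∀ τ : ℍ, evalAt N τ (evC N P) = MvPolynomial.eval₂ (RingHom.id ℂ)
      (fun i : B4h8917.Dv N => ModularForm.E₄ (@JqB.dil i.1 i.neZero τ) ^ 3
        / ModularForm.discriminant (@JqB.dil i.1 i.neZero τ)) P := by
    intro τ
    rw [evC_apply, MvPolynomial.eval₂_comp_left]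
    congr 1
    funext i
    have := i.neZero
    simp only [Function.comp_apply, evalAt_apply, jdFam, jdHol_apply]
    exact B4h8917.jC_dmul i.1 τ
  constructor
  · intro h τ
    rw [← h3 τ, h, map_zero]
  · intro h
    apply Subtype.ext
    funext τ
    have := h τ
    rw [← h3 τ] at this
    exact this

/-- **Specialisation step.**  If `Theta N f` is the `n`-th power of a quotient of polynomial
expressions with COMPLEX coefficients in the `j(dτ)`, then `f` is an `n`-th power in `F_N`. -/
theorem exists_root_of_evC (f : ↥(modularFunctionFieldBar N)) {n : ℕ}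
    (A B : MvPolynomial (B4h8917.Dv N) ℂ) (hB : evC N B ≠ 0)
    (h : (algebraMap (ModHol N) (ModMer N) (evC N A)
        / algebraMap (ModHol N) (ModMer N) (evC N B)) ^ n = Theta N f) :
    ∃ g : ↥(modularFunctionFieldBar N), g ^ n = f := by
  classical
  obtain ⟨A₀, B₀, hB₀, hf⟩ := exists_aeval_div N f
  have hinjM := IsFractionRing.injective (ModHol N) (ModMer N)
  have hBm : algebraMap (ModHol N) (ModMer N) (evC N B) ≠ 0 := (map_ne_zero_iff _ hinjM).mpr hB
  have hB₀e : evC N (MvPolynomial.map iotaC B₀) ≠ 0 := by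
    intro h0
    apply hB₀
    have h1 := Theta_aeval N B₀
    rw [h0, map_zero] at h1
    exact (map_eq_zero_iff (Theta N) (Theta N).injective).mp h1
  have hB₀m : algebraMap (ModHol N) (ModMer N) (evC N (MvPolynomial.map iotaC B₀)) ≠ 0 :=
    (map_ne_zero_iff _ hinjM).mpr hB₀e
  -- the identity in `ModHol N`
  have hid : evC N (A ^ n * MvPolynomial.map iotaC B₀ - MvPolynomial.map iotaC A₀ * B ^ n) = 0 := by
    rw [hf, map_div₀, Theta_aeval, Theta_aeval, div_pow,
      div_eq_div_iff (pow_ne_zero n hBm) hB₀m] at h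
    have h1 : algebraMap (ModHol N) (ModMer N) (evC N A ^ n * evC N (MvPolynomial.map iotaC B₀))
        = algebraMap (ModHol N) (ModMer N) (evC N (MvPolynomial.map iotaC A₀) * evC N B ^ n) := by
      simpa only [map_mul, map_pow] using h
    have h2 := hinjM h1
    rw [map_sub, map_mul, map_mul, map_pow, map_pow, h2, sub_self]
  -- the identity in `ℂ((q))`
  have hform := (evC_eq_zero_iff N _).mp hid
  have hBform : PhiG N (algebraMap ℚ ℂ) B ≠ 0 := fun h0 => hB ((evC_eq_zero_iff N B).mpr h0)
  obtain ⟨m, hm⟩ : ∃ m : ℤ, (PhiG N (algebraMap ℚ ℂ) B).coeff m ≠ 0 := by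
    by_contra hcon
    push Not at hcon
    exact hBform (HahnSeries.ext (funext fun m => by simpa using hcon m))
  -- specialise the coefficients of `A`, `B`
  obtain ⟨R, _, incl, ιR, φ, hincl, hι, hs, ⟨r, hr, hφr⟩, hφι⟩ :=
    exists_specialisation iotaC (A.coeffs ∪ B.coeffs) _ hm
  obtain ⟨A_R, hA_R⟩ : A ∈ Set.range (MvPolynomial.map incl) :=
    MvPolynomial.mem_range_map_iff_coeffs_subset.mpr fun x hx =>
      hs x (Finset.mem_union_left _ hx)
  obtain ⟨B_R, hB_R⟩ : B ∈ Set.range (MvPolynomial.map incl) :=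
    MvPolynomial.mem_range_map_iff_coeffs_subset.mpr fun x hx =>
      hs x (Finset.mem_union_right _ hx)
  set ρR : ℚ →+* R := ιR.comp (algebraMap ℚ K) with hρR
  have hρ1 : incl.comp ρR = algebraMap ℚ ℂ := RingHom.ext_rat _ _
  have hρ2 : φ.comp ρR = algebraMap ℚ K := RingHom.ext_rat _ _
  set P_R : MvPolynomial (B4h8917.Dv N) R :=
    A_R ^ n * MvPolynomial.map ιR B₀ - MvPolynomial.map ιR A₀ * B_R ^ n with hP_R
  have hP1 : MvPolynomial.map incl P_R
      = A ^ n * MvPolynomial.map iotaC B₀ - MvPolynomial.map iotaC A₀ * B ^ n := by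
    rw [hP_R, map_sub, map_mul, map_mul, map_pow, map_pow, hA_R, hB_R, MvPolynomial.map_map,
      MvPolynomial.map_map, hι]
  have hP2 : MvPolynomial.map φ P_R
      = MvPolynomial.map φ A_R ^ n * B₀ - A₀ * MvPolynomial.map φ B_R ^ n := by
    rw [hP_R, map_sub, map_mul, map_mul, map_pow, map_pow, MvPolynomial.map_map,
      MvPolynomial.map_map, hφι, MvPolynomial.map_id, MvPolynomial.map_id]
  have hR0 : PhiG N ρR P_R = 0 := by
    apply coeffMap_injective hincl
    rw [coeffMap_PhiG, hρ1, hP1, hform, map_zero]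
  have hK0 : PhiG N (algebraMap ℚ K)
      (MvPolynomial.map φ A_R ^ n * B₀ - A₀ * MvPolynomial.map φ B_R ^ n) = 0 := by
    have h1 := congrArg (coeffMap φ) hR0
    rw [coeffMap_PhiG, hρ2, hP2, map_zero] at h1
    exact h1
  -- the denominator stays nonzero
  have hBK : PhiG N (algebraMap ℚ K) (MvPolynomial.map φ B_R) ≠ 0 := by
    intro h0
    have h1 : coeffMap φ (PhiG N ρR B_R) = 0 := by rw [coeffMap_PhiG, hρ2, h0]
    have h2 : incl ((PhiG N ρR B_R).coeff m) = incl r := by
      rw [hr, ← coeffMap_coeff, coeffMap_PhiG, hρ1, hB_R]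
    have h3 := congrArg (fun z : LaurentSeries K => z.coeff m) h1
    simp only [coeffMap_coeff, HahnSeries.coeff_zero] at h3
    rw [hincl h2] at h3
    exact hφr h3
  set a' : ↥(modularFunctionFieldBar N) :=
    MvPolynomial.aeval (B4h8917.jBD N) (MvPolynomial.map φ A_R) with ha'
  set b' : ↥(modularFunctionFieldBar N) :=
    MvPolynomial.aeval (B4h8917.jBD N) (MvPolynomial.map φ B_R) with hb'
  have hb'0 : b' ≠ 0 := by
    intro h0
    apply hBK
    rw [PhiG_K, ← coe_aeval_jBD, ← hb', h0]
    rfl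
  have hrel : a' ^ n * MvPolynomial.aeval (B4h8917.jBD N) B₀
      = MvPolynomial.aeval (B4h8917.jBD N) A₀ * b' ^ n := by
    have h1 : MvPolynomial.aeval (B4h8917.jBD N)
        (MvPolynomial.map φ A_R ^ n * B₀ - A₀ * MvPolynomial.map φ B_R ^ n) = 0 := by
      apply Subtype.ext
      rw [coe_aeval_jBD, ← PhiG_K, hK0]
      rfl
    rw [map_sub, map_mul, map_mul, map_pow, map_pow, sub_eq_zero] at h1
    exact h1
  refine ⟨a' / b', ?_⟩
  rw [hf, div_pow, div_eq_div_iff (pow_ne_zero n hb'0) hB₀]
  exact hrel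

/-! ### The complex function field inside `ModMer N` -/

/-- The subfield of `ModMer N` generated by the constants and the functions `j(dτ)`, `d ∣ N`:
the complex function field of `X₀(N)`, i.e. `ℂ · Theta N (F_N)`. -/
def fieldFull : Subfield (ModMer N) :=
  Subfield.closure (Set.range (constM N) ∪
    Set.range (fun d : B4h8917.Dv N => algebraMap (ModHol N) (ModMer N) (jdFam N d)))

theorem algebraMap_evC_mem_fieldFull (P : MvPolynomial (B4h8917.Dv N) ℂ) :
    algebraMap (ModHol N) (ModMer N) (evC N P) ∈ fieldFull N := by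
  induction P using MvPolynomial.induction_on with
  | C a =>
    have h : evC N (MvPolynomial.C a) = constHol N a := MvPolynomial.eval₂Hom_C _ _ a
    rw [h]
    exact Subfield.subset_closure (Or.inl ⟨a, rfl⟩)
  | add p q hp hq =>
    rw [map_add, map_add]
    exact add_mem hp hq
  | mul_X p d hp =>
    have h : evC N (MvPolynomial.X d) = jdFam N d := MvPolynomial.eval₂Hom_X' _ _ d
    rw [map_mul, map_mul, h]
    exact mul_mem hp (Subfield.subset_closure (Or.inr ⟨d, rfl⟩))

theorem fieldJJN_le_fieldFull : fieldJJN N ≤ fieldFull N := by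
  rw [fieldJJN, Subfield.closure_le]
  rintro x (hx | hx | hx)
  · exact Subfield.subset_closure (Or.inl hx)
  · rw [hx]
    exact Subfield.subset_closure (Or.inr ⟨⟨1, one_dvd N⟩, rfl⟩)
  · rw [Set.mem_singleton_iff] at hx
    rw [hx]
    exact Subfield.subset_closure (Or.inr ⟨⟨N, dvd_rfl⟩, rfl⟩)

/-- Every element of `fieldFull N` is a quotient of polynomial expressions in the `j(dτ)`. -/
theorem exists_evC_div_of_mem_fieldFull {z : ModMer N} (hz : z ∈ fieldFull N) :
    ∃ A B : MvPolynomial (B4h8917.Dv N) ℂ, evC N B ≠ 0 ∧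
      z = algebraMap (ModHol N) (ModMer N) (evC N A)
        / algebraMap (ModHol N) (ModMer N) (evC N B) := by
  have hinjM := IsFractionRing.injective (ModHol N) (ModMer N)
  have hne : ∀ {B : MvPolynomial (B4h8917.Dv N) ℂ}, evC N B ≠ 0 →
      algebraMap (ModHol N) (ModMer N) (evC N B) ≠ 0 := fun hB => (map_ne_zero_iff _ hinjM).mpr hB
  induction hz using Subfield.closure_induction with
  | mem x hx =>
    rcases hx with ⟨c, rfl⟩ | ⟨d, rfl⟩
    · refine ⟨MvPolynomial.C c, 1, by rw [map_one]; exact one_ne_zero, ?_⟩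
      have h : evC N (MvPolynomial.C c) = constHol N c := MvPolynomial.eval₂Hom_C _ _ c
      rw [map_one, map_one, div_one, h]
      rfl
    · refine ⟨MvPolynomial.X d, 1, by rw [map_one]; exact one_ne_zero, ?_⟩
      have h : evC N (MvPolynomial.X d) = jdFam N d := MvPolynomial.eval₂Hom_X' _ _ d
      rw [map_one, map_one, div_one, h]
  | one =>
    exact ⟨1, 1, by rw [map_one]; exact one_ne_zero, by rw [map_one, map_one, div_one]⟩
  | add x y _ _ hx hy =>
    obtain ⟨A, B, hB, rfl⟩ := hx
    obtain ⟨A', B', hB', rfl⟩ := hy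
    refine ⟨A * B' + B * A', B * B', by rw [map_mul]; exact mul_ne_zero hB hB', ?_⟩
    rw [div_add_div _ _ (hne hB) (hne hB')]
    simp only [map_add, map_mul]
  | neg x _ hx =>
    obtain ⟨A, B, hB, rfl⟩ := hx
    exact ⟨-A, B, hB, by rw [map_neg, map_neg, neg_div]⟩
  | inv x _ hx =>
    obtain ⟨A, B, hB, rfl⟩ := hx
    by_cases hA : evC N A = 0
    · refine ⟨0, 1, by rw [map_one]; exact one_ne_zero, ?_⟩
      rw [hA, map_zero, zero_div, inv_zero, map_zero, map_zero, zero_div]
    · exact ⟨B, A, hA, by rw [inv_div]⟩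
  | mul x y _ _ hx hy =>
    obtain ⟨A, B, hB, rfl⟩ := hx
    obtain ⟨A', B', hB', rfl⟩ := hy
    refine ⟨A * A', B * B', by rw [map_mul]; exact mul_ne_zero hB hB', ?_⟩
    rw [div_mul_div_comm]
    simp only [map_mul]

/-- `Theta N` takes values in `fieldFull N`. -/
theorem Theta_mem_fieldFull (f : ↥(modularFunctionFieldBar N)) : Theta N f ∈ fieldFull N := by
  obtain ⟨A₀, B₀, _, rfl⟩ := exists_aeval_div N f
  rw [map_div₀, Theta_aeval, Theta_aeval]
  exact div_mem (algebraMap_evC_mem_fieldFull N _) (algebraMap_evC_mem_fieldFull N _)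

/-- **INV for roots.** A `Γ₀(N)`-invariant meromorphic function on `ℍ` one of whose positive powers
lies in the complex function field `fieldFull N` of `X₀(N)` lies in that field. -/
theorem exists_mem_fieldFull_of_pow {z : ModMer N} (hz : z ∈ fieldFull N) (h : B2M.MerH) {n : ℕ}
    (hn : 0 < n) (hpow : h ^ n = modMerToMerH N z)
    (hinv : ∀ γ ∈ CongruenceSubgroup.Gamma0 N, B2M.merAut γ h = h) :
    ∃ h' : ModMer N, h' ∈ fieldFull N ∧ modMerToMerH N h' = h := by
  obtain ⟨A, B, hB, rfl⟩ := exists_evC_div_of_mem_fieldFull N hz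
  set P : ModHol N := evC N A with hP
  set Q : ModHol N := evC N B with hQ
  have hinjH := IsFractionRing.injective B2M.HolH B2M.MerH
  have hQH : algebraMap B2M.HolH B2M.MerH (modHolToHolH N Q) ≠ 0 :=
    (map_ne_zero_iff _ hinjH).mpr ((map_ne_zero_iff _ (modHolToHolH_injective N)).mpr hB)
  obtain ⟨k, rfl⟩ : ∃ k, n = k + 1 := ⟨n - 1, by omega⟩
  -- `y = Q h` has a holomorphic power
  set y : B2M.MerH := algebraMap B2M.HolH B2M.MerH (modHolToHolH N Q) * h with hy
  have hypow : y ^ (k + 1) = algebraMap B2M.HolH B2M.MerH (modHolToHolH N (Q ^ k * P)) := by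
    rw [hy, mul_pow, hpow, map_div₀, modMerToMerH_algebraMap, modMerToMerH_algebraMap, map_mul,
      map_mul, map_pow, map_pow, pow_succ]
    field_simp
  obtain ⟨w, hw⟩ := exists_holH_of_pow y (modHolToHolH N (Q ^ k * P)) hn hypow
  have hwpow : w ^ (k + 1) = modHolToHolH N (Q ^ k * P) := by
    apply hinjH
    rw [map_pow, hw, hypow]
  have hwinv : ∀ γ ∈ CongruenceSubgroup.Gamma0 N, B2M.holAut γ w = w := by
    intro γ hγ
    apply hinjH
    rw [← B2M.merAut_algebraMap, hw, hy, map_mul, hinv γ hγ, B2M.merAut_algebraMap,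
      ← modHolToHolH_modHolAut, hQ, modHolAut_evC N γ hγ]
  obtain ⟨w', hw', hw'inv⟩ := exists_modHol_of_pow N w (Q ^ k * P) hn hwpow hwinv
  have hmem := fieldJJN_le_fieldFull N (algebraMap_mem_fieldJJN_of_invariant N w' hw'inv)
  refine ⟨algebraMap (ModHol N) (ModMer N) w' / algebraMap (ModHol N) (ModMer N) Q,
    div_mem hmem (algebraMap_evC_mem_fieldFull N B), ?_⟩
  rw [map_div₀, modMerToMerH_algebraMap, modMerToMerH_algebraMap, hw', hw, hy,
    mul_div_cancel_left₀ _ hQH]

/-- **Kummer-injectivity core (KI').**  Let `f ∈ F_N` and let `h` be a meromorphic function on `ℍ`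
with `h ^ n = Theta N f`, `n > 0`, which is invariant under `Γ₀(N)` (i.e. its Kummer character is
trivial).  Then `f` is an `n`-th power in `F_N`. -/
theorem exists_root_of_invariant (f : ↥(modularFunctionFieldBar N)) (h : B2M.MerH) {n : ℕ}
    (hn : 0 < n) (hpow : h ^ n = modMerToMerH N (Theta N f))
    (hinv : ∀ γ ∈ CongruenceSubgroup.Gamma0 N, B2M.merAut γ h = h) :
    ∃ g : ↥(modularFunctionFieldBar N), g ^ n = f := by
  obtain ⟨h', hh', rfl⟩ :=
    exists_mem_fieldFull_of_pow N (Theta_mem_fieldFull N f) h hn hpow hinv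
  obtain ⟨A, B, hB, rfl⟩ := exists_evC_div_of_mem_fieldFull N hh'
  refine exists_root_of_evC N f A B hB ?_
  apply (modMerToMerH N).injective
  rw [map_pow]
  exact hpow

/-- (KI) The same for `h` in the field `ModMer N` of the landed S24 library. -/
theorem exists_root_of_invariant_modMer (f : ↥(modularFunctionFieldBar N)) (h : ModMer N) {n : ℕ}
    (hn : 0 < n) (hpow : h ^ n = Theta N f)
    (hinv : ∀ γ ∈ CongruenceSubgroup.Gamma0 N, modAut N γ h = h) :
    ∃ g : ↥(modularFunctionFieldBar N), g ^ n = f :=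
  exists_root_of_invariant N f (modMerToMerH N h) hn (by rw [← map_pow, hpow])
    (fun γ hγ => by rw [← modMerToMerH_modAut, hinv γ hγ])

end Fermat.Agent.S30.Inv3761

end
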